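import Fermat.Agent.LT.General.Setup
import Fermat.Agent.LT.Period.Frobenius

set_option autoImplicit false

/-!
# Frobenius images of a general setup
-/

noncomputable section

open FermatAgent.LT (quaternionSubgroup)
open FermatAgent.LT.Period

namespace FermatAgent.LTG.Period

local notation "Qb" => AlgebraicClosure ℚ
local notation "GQ" => AlgebraicClosure ℚ ≃ₐ[ℚ] AlgebraicClosure ℚ
local notation "G3" => GL (Fin 2) (ZMod 3)

variable (S : Setup)

theorem exists_conj_frobImage {p : Nat.Primes} (hp : ¬ (p : ℕ) ∣ S.m) {A : ValuationSubring Qb}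
    (hA : A.LiesOverPrime p) {σ : GQ} (hσ : A.IsFrobeniusAt σ p) :
    ∃ x : G3, S.ρ σ = x * frobImage S.ρ p * x⁻¹ :=
  exists_conj_map_frobImage S.ρ (S.unramified p p.2 hp) hA hσ

theorem splitsInF_iff {p : Nat.Primes} (hp : ¬ (p : ℕ) ∣ S.m) :
    S.SplitsInF p ↔ frobImage S.ρ p ∈ quaternionSubgroup :=
  forall_map_mem_quaternion_iff S.ρ (S.unramified p p.2 hp)

end FermatAgent.LTG.Period

end
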