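import Fermat.Agent.LT.General.Period.Euler

set_option autoImplicit false

/-!
# The coefficient series over the rational integers is unbounded at `s = 1`
-/

noncomputable section

open Filter Topology Asymptotics
open scoped Classical
open Complex (normSq)
open FermatAgent.GalRep (primeSum)
open FermatAgent.LT (EisInt q8Trace quaternionSubgroup)
open FermatAgent.LT.Period

namespace FermatAgent.LTG.Period

variable {S : Setup} (B : BianchiForm S)

/-- The squares of the eigenvalues at good split primes. -/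
def sqSplit (p : Nat.Primes) : ℝ :=
  if IsGood B p ∧ (p : ℕ) % 3 = 1 then xOf B p ^ 2 + yOf B p ^ 2 else 0

theorem sqSplit_nonneg (p : Nat.Primes) : 0 ≤ sqSplit B p := by
  unfold sqSplit; split_ifs <;> positivity

theorem det_of_mod {p : Nat.Primes} (hdvd : ¬ (p : ℕ) ∣ B.N) :
    (frobImage S.ρ p : Matrix (Fin 2) (Fin 2) (ZMod 3)).det = (((p : ℕ) % 3 : ℕ) : ZMod 3) := by
  rw [det_frobImage S.det_eq (fun h => hdvd (by rw [h]; exact three_dvd_N B)), ZMod.natCast_mod]

theorem split_key {p : Nat.Primes} (hp : IsGood B p) (h : (p : ℕ) % 3 = 1) :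
    8 * indCentral S.ρ p + 2 * indInvol S.ρ p - sqSplit B p / 2 ≤ xOf B p * yOf B p := by
  have hI : indInvol S.ρ p = 0 := by
    unfold indInvol
    refine if_neg fun hi => ?_
    have := hi.1.symm.trans (det_of_mod B hp.2.1)
    rw [h] at this
    exact absurd this (by decide)
  rw [hI, sqSplit, if_pos ⟨hp, h⟩]
  by_cases hq : frobImage S.ρ p ∈ quaternionSubgroup
  · have hs : S.SplitsInF p := (splitsInF_iff S (not_dvd_m B hp.2.1)).2 hq
    have hn := normSq_piOf h
    have hn' : normSq (eisConj (piOf p) : ℂ) = (p : ℕ) := by rw [normSq_eisConj, hn]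
    have hx : xOf B p = q8Trace (frobImage S.ρ p) := by
      rw [xOf, B.c_split _ p (prime_of_normSq p.2 hn) p.2 hp.1 hp.2.1 (dvd_of_normSq hn) hn hs _
        (frobPlace_liesOver p) _ (frobElt_isFrobeniusAt p)]
      simp [frobImage]
    have hy : yOf B p = q8Trace (frobImage S.ρ p) := by
      rw [yOf, B.c_split _ p (prime_of_normSq p.2 hn') p.2 hp.1 hp.2.1 (dvd_of_normSq hn') hn' hs _
        (frobPlace_liesOver p) _ (frobElt_isFrobeniusAt p)]
      simp [frobImage]
    rw [hx, hy, ← pow_two, q8Trace_sq, indCentral]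
    linarith
  · have hC : indCentral S.ρ p = 0 := by
      unfold indCentral
      refine if_neg fun hc => hq ?_
      rcases hc with hc | hc <;> rw [hc]
      · exact one_mem _
      · exact ⟨det_one_or_neg_one (Or.inr rfl), Or.inr (Or.inr rfl)⟩
    rw [hC]
    nlinarith [sq_nonneg (xOf B p + yOf B p)]

theorem inert_key {p : Nat.Primes} (hp : IsGood B p) (h : (p : ℕ) % 3 = 2) :
    8 * indCentral S.ρ p + 2 * indInvol S.ρ p - sqSplit B p / 2 ≤ coef B.c p := by
  have hd : (frobImage S.ρ p : Matrix (Fin 2) (Fin 2) (ZMod 3)).det = -1 := by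
    rw [det_of_mod B hp.2.1, h]; decide
  have hC : indCentral S.ρ p = 0 := by
    unfold indCentral
    refine if_neg fun hc => ?_
    rw [det_one_or_neg_one hc] at hd
    exact absurd hd (by decide)
  have hx : coef B.c p = q8Trace (frobImage S.ρ p ^ 2) := by
    rw [coef, B.c_inert p p.2 hp.1 hp.2.1 h _ (frobPlace_liesOver p) _ (frobElt_isFrobeniusAt p)]
    simp [frobImage]
  rw [hC, sqSplit, if_neg (by omega : ¬ (IsGood B p ∧ (p : ℕ) % 3 = 1)), hx, q8Trace,
    if_neg (sq_ne_neg_one hd), indInvol]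
  by_cases h2 : frobImage S.ρ p ^ 2 = 1
  · rw [if_pos h2, if_pos (show IsOddInvol (frobImage S.ρ p) from ⟨hd, h2⟩)]
    norm_num
  · rw [if_neg h2, if_neg (fun hi : IsOddInvol (frobImage S.ρ p) => h2 hi.2)]
    norm_num

theorem indCentral_mem (p : Nat.Primes) : 0 ≤ indCentral S.ρ p ∧ indCentral S.ρ p ≤ 1 := by
  unfold indCentral; split_ifs <;> norm_num

theorem indInvol_mem (p : Nat.Primes) : 0 ≤ indInvol S.ρ p ∧ indInvol S.ρ p ≤ 1 := by
  unfold indInvol; split_ifs <;> norm_num

/-- The loss at the bad primes. -/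
def badLoss (p : Nat.Primes) : ℝ :=
  if IsGood B p then 0 else |(exists_factor_lower B p).choose| + 10

theorem summable_badLoss : Summable (badLoss B) :=
  summable_of_hasFiniteSupport ((finite_not_isGood B).subset fun p hp h => hp (by simp [badLoss, h]))

/-- The minorant of `log |E_p|`. -/
def logLow (s : ℝ) (p : Nat.Primes) : ℝ :=
  (8 * indCentral S.ρ p + 2 * indInvol S.ρ p - 3 / 5 * sqSplit B p) * ((p : ℕ) : ℝ) ^ (-s) -
    10 * (((p : ℕ) : ℝ) ^ (-s)) ^ 2 - badLoss B p

theorem exp_logLow_le {s : ℝ} (hs : 1 < s) (p : Nat.Primes) :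
    Real.exp (logLow B s p) ≤ |factor B s p| := by
  set t := ((p : ℕ) : ℝ) ^ (-s) with ht
  have ht0 : 0 < t := Real.rpow_pos_of_pos (by exact_mod_cast p.2.pos) _
  by_cases hp : IsGood B p
  · have ht1 : t ≤ 1 / 20 := rpow_neg_le hs.le (by norm_num) (by exact_mod_cast hp.2.2)
    rw [logLow, badLoss, if_pos hp, sub_zero]
    refine le_trans ?_ (le_abs_self _)
    rcases mod_three_cases B hp.2.1 with h | h
    · have hx := abs_evOf_le B (i := (p, true)) ⟨hp, h⟩
      have hy := abs_evOf_le B (i := (p, false)) ⟨hp, h⟩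
      rw [evOf_true] at hx
      rw [evOf_false] at hy
      refine le_trans (Real.exp_le_exp.2 ?_)
        (split_lower_bound (Real.one_le_sqrt.mpr (by exact_mod_cast p.2.one_lt.le)) hx hy ht0
          (sqrt_sq_mul_lt_one p hs) ht1 (factor_split B hs h hp.2.1))
      have h1 := mul_le_mul_of_nonneg_right (split_key B hp h) ht0.le
      rw [sqSplit, if_pos (show IsGood B p ∧ (p : ℕ) % 3 = 1 from ⟨hp, h⟩)] at h1 ⊢
      linarith
    · refine le_trans (Real.exp_le_exp.2 ?_)
        (inert_lower (abs_coef_inert_le B hp h) ht0 ht1 (factor_inert B hs h hp.2.1))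
      have := mul_le_mul_of_nonneg_right (inert_key B hp h) ht0.le
      rw [show sqSplit B p = 0 from if_neg fun hh => by omega] at this ⊢
      linarith
  · refine le_trans (Real.exp_le_exp.2 ?_) ((exists_factor_lower B p).choose_spec s hs)
    have ht1 : t ≤ 1 / 2 := rpow_neg_le hs.le two_pos (by exact_mod_cast p.2.two_le)
    have hS : sqSplit B p = 0 := if_neg fun h => hp h.1
    rw [logLow, badLoss, if_neg hp, hS, ← ht]
    obtain ⟨hc0, hc1⟩ := indCentral_mem (S := S) p
    obtain ⟨hi0, hi1⟩ := indInvol_mem (S := S) p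
    have : (8 * indCentral S.ρ p + 2 * indInvol S.ρ p - 3 / 5 * 0) * t ≤ 10 * 1 :=
      mul_le_mul (by linarith) (by linarith) ht0.le (by norm_num)
    linarith [neg_abs_le (exists_factor_lower B p).choose, sq_nonneg t]

theorem exists_primeSum_sqSplit_le : ∃ C : ℝ, ∀ s : ℝ, 1 < s → s ≤ 3 / 2 →
    Summable (fun p : Nat.Primes => sqSplit B p * ((p : ℕ) : ℝ) ^ (-s)) ∧
      primeSum (sqSplit B) s ≤ 10 / 9 * -Real.log (s - 1) + C := by
  obtain ⟨C₀, hC₀, hprod⟩ := exists_sqFactor_prod_le B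
  set T2 := ∑' p : Nat.Primes, ((p : ℕ) : ℝ) ^ (-2 : ℝ)
  have hT2 : Summable fun p : Nat.Primes => ((p : ℕ) : ℝ) ^ (-2 : ℝ) :=
    Nat.Primes.summable_rpow.2 (by norm_num)
  refine ⟨10 / 9 * (Real.log (C₀ + 1) + 4 * T2), fun s hs hs' => ?_⟩
  have hL : (0 : ℝ) < s - 1 := by linarith
  have hnn : ∀ p : Nat.Primes, 0 ≤ sqSplit B p * ((p : ℕ) : ℝ) ^ (-s) := fun p =>
    mul_nonneg (sqSplit_nonneg B p) (by positivity)
  have hbound : ∀ T : Finset Nat.Primes, ∑ p ∈ T, sqSplit B p * ((p : ℕ) : ℝ) ^ (-s) ≤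
      10 / 9 * -Real.log (s - 1) + 10 / 9 * (Real.log (C₀ + 1) + 4 * T2) := by
    intro T
    set T' := T.filter fun p => IsGood B p ∧ (p : ℕ) % 3 = 1
    set I := T' ×ˢ (Finset.univ : Finset Bool)
    have hI : ∀ i ∈ I, IsGoodSplit B i := fun i hi =>
      (Finset.mem_filter.1 (Finset.mem_product.1 hi).1).2
    set w : Nat.Primes × Bool → ℝ := fun i =>
      9 / 10 * evOf B i ^ 2 * ((i.1 : ℕ) : ℝ) ^ (-s) - 2 * (((i.1 : ℕ) : ℝ) ^ (-s)) ^ 2 with hw
    have hlog : ∑ i ∈ I, w i ≤ Real.log ((C₀ + 1) / (s - 1)) := by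
      rw [Real.le_log_iff_exp_le (div_pos (by linarith) hL), Real.exp_sum]
      have h2 := hprod s hs I hI
      rw [min_eq_left hs'] at h2
      refine le_trans (Finset.prod_le_prod (fun i _ => (Real.exp_pos _).le) fun i hi => ?_)
        (h2.trans (div_le_div_of_nonneg_right (by linarith) hL.le))
      exact square_lower_bound (Real.one_le_sqrt.mpr (by exact_mod_cast i.1.2.one_lt.le))
        (abs_evOf_le B (hI i hi)) (Real.rpow_pos_of_pos (by exact_mod_cast i.1.2.pos) _)
        (sqrt_sq_mul_lt_one i.1 hs)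
        (rpow_neg_le hs.le (by norm_num) (by exact_mod_cast (hI i hi).1.2.2))
        (summable_sqTerm B hs (hI i hi))
    rw [Real.log_div (by linarith) hL.ne'] at hlog
    rw [show ∑ i ∈ I, w i = ∑ p ∈ T', (w (p, true) + w (p, false)) by
      rw [Finset.sum_product]; simp] at hlog
    have hsum : 9 / 10 * ∑ p ∈ T, sqSplit B p * ((p : ℕ) : ℝ) ^ (-s) ≤
        ∑ p ∈ T', (w (p, true) + w (p, false)) + 4 * ∑ p ∈ T', ((p : ℕ) : ℝ) ^ (-2 : ℝ) := by
      rw [Finset.mul_sum, Finset.mul_sum, ← Finset.sum_add_distrib,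
        ← Finset.sum_filter_of_ne (p := fun p : Nat.Primes => IsGood B p ∧ (p : ℕ) % 3 = 1)
          fun p _ hne => by
            by_contra h
            exact hne (by simp [sqSplit, h])]
      refine Finset.sum_le_sum fun p hp => ?_
      have ht : (((p : ℕ) : ℝ) ^ (-s)) ^ 2 ≤ ((p : ℕ) : ℝ) ^ (-2 : ℝ) := by
        rw [← Real.rpow_natCast _ 2, ← Real.rpow_mul (Nat.cast_nonneg _)]
        refine Real.rpow_le_rpow_of_exponent_le (by exact_mod_cast p.2.one_lt.le) ?_
        push_cast
        linarith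
      simp only [hw, evOf_true, evOf_false]
      rw [sqSplit, if_pos (Finset.mem_filter.1 hp).2]
      linarith
    linarith [hT2.sum_le_tsum T' fun p _ => by positivity]
  exact ⟨summable_of_sum_le hnn hbound, Real.tsum_le_of_sum_le hnn hbound⟩

/-- The coefficient series is unbounded as `s → 1⁺`. -/
theorem tendsto_abs_dirichlet :
    Tendsto (fun s => |∑' n, dterm B.c s n|) (𝓝[>] (1 : ℝ)) atTop := by
  obtain ⟨Csq, hCsq⟩ := exists_primeSum_sqSplit_le B
  obtain ⟨CC, hCC⟩ := (primeSum_indCentral_isBigO S.finiteLevel S.surjective).bound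
  obtain ⟨CI, hCI⟩ := (primeSum_indInvol_isBigO S.finiteLevel S.surjective).bound
  set K := 8 * CC + 2 * CI + 3 / 5 * Csq + 10 * ∑' p : Nat.Primes, ((p : ℕ) : ℝ) ^ (-2 : ℝ) +
    ∑' p, badLoss B p
  have hmain : ∀ᶠ s in 𝓝[>] (1 : ℝ),
      Real.exp (-Real.log (s - 1) / 6 - K) ≤ |∑' n, dterm B.c s n| := by
    filter_upwards [hCC, hCI, Ioc_mem_nhdsGT (show (1 : ℝ) < 3 / 2 by norm_num)] with s hc hi hs
    obtain ⟨hs1, hs2⟩ := hs
    rw [Real.norm_eq_abs, norm_one, mul_one, abs_le] at hc hi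
    obtain ⟨sQ, hq⟩ := hCsq s hs1 hs2
    have hbC : ∀ p, |indCentral S.ρ p| ≤ 1 := fun p =>
      abs_le.2 ⟨by linarith [(indCentral_mem (S := S) p).1], (indCentral_mem p).2⟩
    have hbI : ∀ p, |indInvol S.ρ p| ≤ 1 := fun p =>
      abs_le.2 ⟨by linarith [(indInvol_mem (S := S) p).1], (indInvol_mem p).2⟩
    have sC := FermatAgent.GalRep.summable_primeSum hbC hs1
    have sI := FermatAgent.GalRep.summable_primeSum hbI hs1
    have sT : Summable fun p : Nat.Primes => (((p : ℕ) : ℝ) ^ (-s)) ^ 2 := by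
      refine Summable.of_nonneg_of_le (fun p => by positivity) (fun p => ?_)
        (Nat.Primes.summable_rpow.2 (show (-2 : ℝ) < -1 by norm_num))
      rw [← Real.rpow_natCast _ 2, ← Real.rpow_mul (Nat.cast_nonneg _)]
      refine Real.rpow_le_rpow_of_exponent_le (by exact_mod_cast p.2.one_lt.le) ?_
      push_cast
      linarith
    have sL : HasSum (logLow B s) (8 * primeSum (indCentral S.ρ) s + 2 * primeSum (indInvol S.ρ) s -
        3 / 5 * primeSum (sqSplit B) s - 10 * ∑' p : Nat.Primes, (((p : ℕ) : ℝ) ^ (-s)) ^ 2 -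
          ∑' p, badLoss B p) := by
      refine ((((sC.hasSum.mul_left 8).add (sI.hasSum.mul_left 2)).sub
        (sQ.hasSum.mul_left (3 / 5))).sub (sT.hasSum.mul_left 10)).sub
          (summable_badLoss B).hasSum |>.congr_fun fun p => ?_
      rw [logLow]
      ring
    have hT : ∑' p : Nat.Primes, (((p : ℕ) : ℝ) ^ (-s)) ^ 2 ≤
        ∑' p : Nat.Primes, ((p : ℕ) : ℝ) ^ (-2 : ℝ) := by
      refine sT.tsum_le_tsum (fun p => ?_) (Nat.Primes.summable_rpow.2 (by norm_num))
      rw [← Real.rpow_natCast _ 2, ← Real.rpow_mul (Nat.cast_nonneg _)]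
      refine Real.rpow_le_rpow_of_exponent_le (by exact_mod_cast p.2.one_lt.le) ?_
      push_cast
      linarith
    have hlim : Real.exp (∑' p, logLow B s p) ≤ |∑' n, dterm B.c s n| := by
      refine le_of_tendsto_of_tendsto' ((Real.continuous_exp.tendsto _).comp sL.summable.hasSum)
        ((continuous_abs.tendsto _).comp (hasProd_factor B hs1)) fun T => ?_
      simp only [Function.comp_apply]
      rw [Finset.abs_prod, Real.exp_sum]
      exact Finset.prod_le_prod (fun p _ => (Real.exp_pos _).le) fun p _ => exp_logLow_le B hs1 p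
    refine le_trans (Real.exp_le_exp.2 ?_) hlim
    rw [sL.tsum_eq]
    simp only [K]
    linarith [hc.1, hi.1]
  refine tendsto_atTop_mono' _ hmain (Real.tendsto_exp_atTop.comp ?_)
  have h1 : Tendsto (fun s : ℝ => Real.log (s - 1)) (𝓝[>] 1) atBot := by
    refine Real.tendsto_log_nhdsGT_zero.comp (tendsto_nhdsWithin_iff.mpr ⟨?_, ?_⟩)
    · exact ((continuous_sub_right (1 : ℝ)).tendsto' 1 0 (sub_self _)).mono_left nhdsWithin_le_nhds
    · filter_upwards [self_mem_nhdsWithin] with s hs using sub_pos.mpr (Set.mem_Ioi.mp hs)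
  exact tendsto_atTop_add_const_right _ (-K)
    ((tendsto_neg_atBot_atTop.comp h1).atTop_div_const (show (0 : ℝ) < 6 by norm_num)) |>.congr
      fun s => by simp only [Function.comp_apply]; ring

end FermatAgent.LTG.Period

end
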