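import Fermat.Agent.LT.General.Period.Lower
import Fermat.Agent.LT.Period.Main

set_option autoImplicit false

/-!
# The period of a general Bianchi form does not vanish
-/

noncomputable section

namespace FermatAgent.LTG.BianchiForm

theorem period_ne_zero {S : Setup} (B : BianchiForm S) [NeZero B.N] : B.period ≠ 0 :=
  FermatAgent.LT.Period.integral_uhpForm_ne_zero B.periodData
    (fun _ hs => Period.summable_norm_dterm B hs) (Period.tendsto_abs_dirichlet B)

end FermatAgent.LTG.BianchiForm

end
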