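import Fermat.Agent.LT.Period.Euler

set_option autoImplicit false

/-!
# Local factors with the Hecke trivial bound

If the Hecke sequence of `x` grows at most like `r ^ k` then `|x| ≤ r + r⁻¹`; this bound keeps the
local factors positive for `r ^ 2 * t < 1` and gives lower bounds in terms of the squares.
-/

noncomputable section

open FermatAgent.LT.Period

namespace FermatAgent.LTG.Period

theorem abs_le_of_heckeSeq_le {x C r : ℝ} (hr : 1 ≤ r) (h : ∀ k, |heckeSeq x k| ≤ C * r ^ k) :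
    |x| ≤ r + r⁻¹ := by
  by_contra hx
  push Not at hx
  have hr0 : 0 < r := by linarith
  set q := |x| - r⁻¹ with hq
  have hrq : r < q := by linarith
  have hq0 : 0 < q := hr0.trans hrq
  have hqi : q⁻¹ ≤ r⁻¹ := inv_anti₀ hr0 hrq.le
  have key : ∀ k, q ^ k ≤ |heckeSeq x k| ∧ q * |heckeSeq x k| ≤ |heckeSeq x (k + 1)| := by
    intro k
    induction k with
    | zero =>
      have := inv_pos.mpr hr0
      simp only [pow_zero, heckeSeq, abs_one, mul_one]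
      exact ⟨le_rfl, by linarith⟩
    | succ k ih =>
      obtain ⟨h1, h2⟩ := ih
      refine ⟨(by rw [pow_succ']; exact (mul_le_mul_of_nonneg_left h1 hq0.le).trans h2), ?_⟩
      have h3 : |x| * |heckeSeq x (k + 1)| - |heckeSeq x k| ≤ |heckeSeq x (k + 2)| := by
        rw [← abs_mul, heckeSeq]
        exact abs_sub_abs_le_abs_sub _ _
      have h4 : |heckeSeq x k| ≤ r⁻¹ * |heckeSeq x (k + 1)| :=
        calc |heckeSeq x k| = q⁻¹ * (q * |heckeSeq x k|) := by field_simp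
          _ ≤ r⁻¹ * |heckeSeq x (k + 1)| :=
            mul_le_mul hqi h2 (mul_nonneg hq0.le (abs_nonneg _)) (inv_nonneg.mpr hr0.le)
      refine le_trans ?_ h3
      rw [hq, sub_mul]
      linarith
  obtain ⟨k, hk⟩ := pow_unbounded_of_one_lt C ((one_lt_div hr0).mpr hrq)
  rw [div_pow, lt_div_iff₀ (pow_pos hr0 k)] at hk
  exact (hk.trans_le ((key k).1.trans (h k))).false

/-- The denominator of a split factor is positive. -/
theorem split_den_pos {x y t r : ℝ} (hr : 1 ≤ r) (hx : |x| ≤ r + r⁻¹) (hy : |y| ≤ r + r⁻¹)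
    (ht0 : 0 < t) (hrt : r ^ 2 * t < 1) :
    0 < 1 - x * y * t + (x ^ 2 + y ^ 2 - 2) * t ^ 2 - x * y * t ^ 3 + t ^ 4 := by
  have hr0 : 0 < r := by linarith
  have hr2 : 1 ≤ r ^ 2 := one_le_pow₀ hr
  have ht1 : t < 1 := by nlinarith
  have hprod : |x * y| ≤ (r + r⁻¹) ^ 2 := by
    rw [abs_mul, sq]
    exact mul_le_mul hx hy (abs_nonneg _) (by positivity)
  have hw : |x * y| * t * r ^ 2 ≤ (r ^ 2 + 1) ^ 2 * t := by
    have e : (r + r⁻¹) ^ 2 * r ^ 2 = (r ^ 2 + 1) ^ 2 := by field_simp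
    calc |x * y| * t * r ^ 2 ≤ (r + r⁻¹) ^ 2 * t * r ^ 2 := by gcongr
      _ = _ := by rw [← e]; ring
  have hgap : |x * y| * t < (1 + t) ^ 2 := by
    refine lt_of_mul_lt_mul_right (hw.trans_lt ?_) (sq_nonneg r)
    nlinarith [mul_pos (sub_pos.mpr hrt) (show 0 < r ^ 2 - t by linarith)]
  have hsq : 2 * |x * y| ≤ x ^ 2 + y ^ 2 := by
    rw [abs_mul]
    nlinarith [sq_nonneg (|x| - |y|), sq_abs x, sq_abs y]
  have hpos : 0 < (1 - t) ^ 2 * ((1 + t) ^ 2 - |x * y| * t) :=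
    mul_pos (pow_pos (by linarith) 2) (by linarith)
  nlinarith [le_abs_self (x * y), mul_le_mul_of_nonneg_right hsq (sq_nonneg t),
    mul_le_mul_of_nonneg_right (le_abs_self (x * y)) (show 0 ≤ t * (1 + t ^ 2) by positivity)]

theorem exp_le_one_sub_sq {t : ℝ} (ht : t ^ 2 ≤ 1 / 2) :
    Real.exp (-(2 * t ^ 2)) ≤ 1 - t ^ 2 := by
  rw [Real.exp_neg, inv_le_iff_one_le_mul₀ (Real.exp_pos _)]
  nlinarith [Real.add_one_le_exp (2 * t ^ 2), sq_nonneg t]

/-- A split factor from below. -/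
theorem split_lower_bound {x y t r E : ℝ} (hr : 1 ≤ r) (hx : |x| ≤ r + r⁻¹)
    (hy : |y| ≤ r + r⁻¹) (ht0 : 0 < t) (hrt : r ^ 2 * t < 1) (ht : t ≤ 1 / 20)
    (hE : E * (1 - x * y * t + (x ^ 2 + y ^ 2 - 2) * t ^ 2 - x * y * t ^ 3 + t ^ 4) = 1 - t ^ 2) :
    Real.exp (x * y * t - (x ^ 2 + y ^ 2) * t / 10 - 10 * t ^ 2) ≤ E := by
  have hpos := split_den_pos hr hx hy ht0 hrt
  set Δ := 1 - x * y * t + (x ^ 2 + y ^ 2 - 2) * t ^ 2 - x * y * t ^ 3 + t ^ 4 with hΔ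
  have ht2 : t ^ 2 ≤ t * (1 / 20) := by nlinarith
  have hup : Δ ≤ 1 + (-(x * y * t) + (x ^ 2 + y ^ 2) * t / 10 + 8 * t ^ 2) := by
    rw [hΔ]
    nlinarith [sq_nonneg (x + y), sq_nonneg x, sq_nonneg y, pow_pos ht0 3, pow_pos ht0 4,
      mul_nonneg (sq_nonneg (x + y)) (pow_pos ht0 3).le,
      mul_le_mul_of_nonneg_left ht2 (add_nonneg (sq_nonneg x) (sq_nonneg y))]
  have hexp : Δ ≤ Real.exp (-(x * y * t) + (x ^ 2 + y ^ 2) * t / 10 + 8 * t ^ 2) :=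
    hup.trans (by linarith [Real.add_one_le_exp (-(x * y * t) + (x ^ 2 + y ^ 2) * t / 10 + 8 * t ^ 2)])
  rw [show E = (1 - t ^ 2) / Δ from (eq_div_iff hpos.ne').mpr hE, le_div_iff₀ hpos]
  calc Real.exp (x * y * t - (x ^ 2 + y ^ 2) * t / 10 - 10 * t ^ 2) * Δ
      ≤ Real.exp (x * y * t - (x ^ 2 + y ^ 2) * t / 10 - 10 * t ^ 2) *
          Real.exp (-(x * y * t) + (x ^ 2 + y ^ 2) * t / 10 + 8 * t ^ 2) :=
        mul_le_mul_of_nonneg_left hexp (Real.exp_pos _).le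
    _ = Real.exp (-(2 * t ^ 2)) := by rw [← Real.exp_add]; congr 1; ring
    _ ≤ _ := exp_le_one_sub_sq (by nlinarith)

/-- The series of squares from below. -/
theorem square_lower_bound {x t r : ℝ} (hr : 1 ≤ r) (hx : |x| ≤ r + r⁻¹) (ht0 : 0 < t)
    (hrt : r ^ 2 * t < 1) (ht : t ≤ 1 / 20)
    (h : Summable fun k => heckeSeq x k * heckeSeq x k * t ^ k) :
    Real.exp (9 / 10 * x ^ 2 * t - 2 * t ^ 2) ≤ ∑' k, heckeSeq x k * heckeSeq x k * t ^ k := by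
  have hpos := split_den_pos hr hx hx ht0 hrt
  set Δ := 1 - x * x * t + (x ^ 2 + x ^ 2 - 2) * t ^ 2 - x * x * t ^ 3 + t ^ 4 with hΔ
  have hup : Δ ≤ 1 - 9 / 10 * x ^ 2 * t := by
    rw [hΔ]
    nlinarith [mul_le_mul_of_nonneg_left ht (mul_nonneg (sq_nonneg x) ht0.le),
      mul_nonneg (sq_nonneg x) (pow_pos ht0 3).le, mul_le_mul ht ht ht0.le (by norm_num)]
  have hexp : Δ ≤ Real.exp (-(9 / 10 * x ^ 2 * t)) :=
    hup.trans (by linarith [Real.add_one_le_exp (-(9 / 10 * x ^ 2 * t))])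
  rw [show (∑' k, heckeSeq x k * heckeSeq x k * t ^ k) = (1 - t ^ 2) / Δ from
    (eq_div_iff hpos.ne').mpr (tsum_split_mul h), le_div_iff₀ hpos]
  calc Real.exp (9 / 10 * x ^ 2 * t - 2 * t ^ 2) * Δ
      ≤ Real.exp (9 / 10 * x ^ 2 * t - 2 * t ^ 2) * Real.exp (-(9 / 10 * x ^ 2 * t)) :=
        mul_le_mul_of_nonneg_left hexp (Real.exp_pos _).le
    _ = Real.exp (-(2 * t ^ 2)) := by rw [← Real.exp_add]; congr 1; ring
    _ ≤ _ := exp_le_one_sub_sq (by nlinarith)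

end FermatAgent.LTG.Period

end
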