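import Fermat.Agent.LT.General.Interface
import Fermat.Agent.LT.Period.Parseval
import Fermat.Agent.LT.General.Period.Frobenius
import Fermat.Agent.LT.General.Period.Local

set_option autoImplicit false

/-!
# The Euler product of the coefficient series over the rational integers

The series of squares of the coefficients bounds the products of the local series of squares;
this gives absolute convergence of the Euler product for `1 < s`.
-/

noncomputable section

open Filter Topology Asymptotics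
open scoped Classical
open Complex (normSq)
open FermatAgent.GalRep (primeSum)
open FermatAgent.LT (EisInt q8Trace quaternionSubgroup)
open FermatAgent.LT.Period

namespace FermatAgent.LTG

/-- A general Bianchi form as input of the period computation. -/
def BianchiForm.periodData {S : Setup} (B : BianchiForm S) : FermatAgent.LT.PeriodData B.N :=
  ⟨B.φ, B.invariant, B.scalar, B.continuous, B.bounded, B.decay, B.c, B.expansion, B.c_zero,
    B.c_real, B.c_unit⟩

namespace Period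

variable {S : Setup} (B : BianchiForm S)

theorem three_dvd_N : 3 ∣ B.N :=
  ((show (3 : ℕ) ∣ 6 by norm_num).trans S.six_dvd).trans B.m_dvd

theorem not_dvd_m {p : ℕ} (h : ¬ p ∣ B.N) : ¬ p ∣ S.m := fun h' => h (h'.trans B.m_dvd)

theorem c_ofReal (ν : EisInt) : ((B.c ν).re : ℂ) = B.c ν :=
  Complex.conj_eq_iff_re.1 (B.c_real ν)

theorem coef_zero : coef B.c 0 = 0 := by simp [coef, B.c_zero]

theorem coef_one : coef B.c 1 = 1 := by simp [coef, B.c_one]

theorem coef_mul {m n : ℕ} (h : m.Coprime n) : coef B.c (m * n) = coef B.c m * coef B.c n := by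
  rw [coef, Nat.cast_mul, B.c_mul _ _ (isCoprime_natCast h), ← c_ofReal B, ← c_ofReal B (n : EisInt),
    ← Complex.ofReal_mul, Complex.ofReal_re]
  rfl

theorem exists_abs_coef_le : ∃ C : ℝ, 0 ≤ C ∧ ∀ n : ℕ, |coef B.c n| ≤ C * n := by
  obtain ⟨C, hC0, hC⟩ := exists_norm_c_le B.periodData B.N_ne_zero
  refine ⟨C, hC0, fun n => (Complex.abs_re_le_norm _).trans ((hC _).trans_eq ?_)⟩
  rw [norm_natCast_eis]

theorem c_pow {π : EisInt} (hπ : Prime π)
    (hN : IsCoprime π (B.N : EisInt)) :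
    ∀ k, B.c (π ^ k) = ((heckeSeq (B.c π).re k : ℝ) : ℂ)
  | 0 => by simp [heckeSeq, B.c_one]
  | 1 => by simp [heckeSeq, c_ofReal B π]
  | k + 2 => by
    rw [B.c_prime_pow π k hπ hN, c_pow hπ hN (k + 1), c_pow hπ hN k, heckeSeq]
    push_cast
    rw [c_ofReal B π]

theorem dterm_mul (s : ℝ) {m n : ℕ} (h : m.Coprime n) :
    dterm B.c s (m * n) = dterm B.c s m * dterm B.c s n := by
  rw [dterm, dterm, dterm, coef_mul B h, Nat.cast_mul,
    Real.mul_rpow (Nat.cast_nonneg m) (Nat.cast_nonneg n)]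
  ring

theorem dterm_one (s : ℝ) : dterm B.c s 1 = 1 := by simp [dterm, coef_one]

theorem dterm_zero (s : ℝ) : dterm B.c s 0 = 0 := by simp [dterm, coef_zero]

theorem dterm_pow (s : ℝ) (p e : ℕ) :
    dterm B.c s (p ^ e) = coef B.c (p ^ e) * ((p : ℝ) ^ (-s)) ^ e := by
  rw [dterm, Nat.cast_pow, ← Real.rpow_natCast_mul (Nat.cast_nonneg p), mul_comm (e : ℝ),
    Real.rpow_mul (Nat.cast_nonneg p), Real.rpow_natCast]

/-- The Euler factor. -/
def factor (s : ℝ) (p : Nat.Primes) : ℝ := ∑' e : ℕ, dterm B.c s ((p : ℕ) ^ e)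

theorem summable_norm_dterm_pow {s : ℝ} (hs : 1 < s) {p : ℕ} (hp : p.Prime) :
    Summable fun e : ℕ => ‖dterm B.c s (p ^ e)‖ := by
  obtain ⟨C, hC0, hC⟩ := exists_abs_coef_le B
  have hp0 : (0 : ℝ) < p := by exact_mod_cast hp.pos
  have hr : (p : ℝ) ^ (1 - s) < 1 :=
    Real.rpow_lt_one_of_one_lt_of_neg (by exact_mod_cast hp.one_lt) (by linarith)
  refine Summable.of_nonneg_of_le (fun e => norm_nonneg _) (fun e => ?_)
    ((summable_geometric_of_lt_one (by positivity) hr).mul_left C)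
  rw [dterm_pow, norm_mul, Real.norm_eq_abs, Real.norm_eq_abs,
    abs_of_nonneg (show (0 : ℝ) ≤ ((p : ℝ) ^ (-s)) ^ e by positivity),
    show (1 - s : ℝ) = 1 + -s by ring, Real.rpow_add hp0, Real.rpow_one, mul_pow, ← mul_assoc]
  exact mul_le_mul_of_nonneg_right ((hC _).trans_eq (by push_cast; ring)) (by positivity)

theorem summable_dterm_pow {s : ℝ} (hs : 1 < s) {p : ℕ} (hp : p.Prime) :
    Summable fun e : ℕ => coef B.c (p ^ e) * ((p : ℝ) ^ (-s)) ^ e :=
  (summable_norm_dterm_pow B hs hp).of_norm.congr fun e => dterm_pow B s p e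

/-- The eigenvalue at `π`. -/
def xOf (p : Nat.Primes) : ℝ := (B.c (piOf p)).re

/-- The eigenvalue at the conjugate of `π`. -/
def yOf (p : Nat.Primes) : ℝ := (B.c (eisConj (piOf p))).re

theorem coef_pow_dvd {p : ℕ} (hp : p.Prime) (hdvd : p ∣ B.N) (e : ℕ) :
    coef B.c (p ^ (e + 1)) = 0 := by
  rw [coef, B.c_support _ (not_isCoprime_prime_pow hp hdvd e), Complex.zero_re]

theorem isCoprime_level {π : EisInt} {p : ℕ} (hp : p.Prime) (hdvd : ¬ p ∣ B.N)
    (hπ : π ∣ (p : EisInt)) : IsCoprime π (B.N : EisInt) :=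
  isCoprime_of_dvd_natCast hπ dvd_rfl (hp.coprime_iff_not_dvd.2 hdvd)

theorem coef_pow_split {p : Nat.Primes} (h : (p : ℕ) % 3 = 1) (hdvd : ¬ (p : ℕ) ∣ B.N)
    (e : ℕ) : coef B.c ((p : ℕ) ^ e) = heckeSeq (xOf B p) e * heckeSeq (yOf B p) e := by
  have hn := normSq_piOf h
  have hn' : normSq (eisConj (piOf p) : ℂ) = (p : ℕ) := by rw [normSq_eisConj, hn]
  have hp3 : (p : ℕ) ≠ 3 := by omega
  rw [coef, Nat.cast_pow, ← mul_eisConj hn, mul_pow, B.c_mul _ _ ((isCoprime_eisConj p.2 hp3 hn).pow),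
    c_pow B (prime_of_normSq p.2 hn) (isCoprime_level B p.2 hdvd (dvd_of_normSq hn)),
    c_pow B (prime_of_normSq p.2 hn') (isCoprime_level B p.2 hdvd (dvd_of_normSq hn')),
    ← Complex.ofReal_mul, Complex.ofReal_re]
  rfl

theorem coef_pow_inert {p : Nat.Primes} (h : (p : ℕ) % 3 = 2) (hdvd : ¬ (p : ℕ) ∣ B.N)
    (e : ℕ) : coef B.c ((p : ℕ) ^ e) = heckeSeq (coef B.c p) e := by
  rw [coef, Nat.cast_pow, c_pow B (prime_of_inert p.2 h) (isCoprime_level B p.2 hdvd dvd_rfl),
    Complex.ofReal_re]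
  rfl

theorem mod_three_cases {p : Nat.Primes} (hdvd : ¬ (p : ℕ) ∣ B.N) :
    (p : ℕ) % 3 = 1 ∨ (p : ℕ) % 3 = 2 := by
  have : (p : ℕ) % 3 ≠ 0 := fun h0 => hdvd (by
    rw [← ((Nat.prime_dvd_prime_iff_eq Nat.prime_three p.2).1 (Nat.dvd_of_mod_eq_zero h0))]
    exact three_dvd_N B)
  omega

/-- The primes at which everything is prescribed. -/
def IsGood (p : Nat.Primes) : Prop :=
  (p : ℕ) ∉ B.exc ∧ ¬ (p : ℕ) ∣ B.N ∧ 20 ≤ (p : ℕ)

theorem finite_not_isGood : {p : Nat.Primes | ¬ IsGood B p}.Finite := by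
  refine ((B.exc.finite_toSet.union (B.N.divisors.finite_toSet.union
    (Finset.range 20).finite_toSet)).preimage Subtype.val_injective.injOn).subset fun p hp => ?_
  simp only [IsGood, not_and_or, not_not, not_le] at hp
  rcases hp with h | h | h
  · exact Or.inl h
  · exact Or.inr (Or.inl (Finset.mem_coe.2 (Nat.mem_divisors.2 ⟨h, B.N_ne_zero⟩)))
  · exact Or.inr (Or.inr (Finset.mem_coe.2 (Finset.mem_range.2 h)))

/-- A prime above a good split prime. -/
def IsGoodSplit (i : Nat.Primes × Bool) : Prop := IsGood B i.1 ∧ (i.1 : ℕ) % 3 = 1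

/-- The eigenvalue at a prime above a split prime. -/
def evOf (i : Nat.Primes × Bool) : ℝ := (B.c (piPair i)).re

theorem evOf_true (p : Nat.Primes) : evOf B (p, true) = xOf B p := by simp [evOf, piPair, xOf]

theorem evOf_false (p : Nat.Primes) : evOf B (p, false) = yOf B p := by simp [evOf, piPair, yOf]

theorem c_piPair_pow {i : Nat.Primes × Bool} (h : IsGoodSplit B i) (k : ℕ) :
    B.c (piPair i ^ k) = ((heckeSeq (evOf B i) k : ℝ) : ℂ) :=
  c_pow B (prime_of_normSq i.1.2 (normSq_piPair h.2))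
    (isCoprime_level B i.1.2 h.1.2.1 (dvd_of_normSq (normSq_piPair h.2))) k

theorem exists_abs_heckeSeq_le : ∃ C : ℝ, 0 ≤ C ∧ ∀ i : Nat.Primes × Bool, IsGoodSplit B i →
    ∀ k, |heckeSeq (evOf B i) k| ≤ C * Real.sqrt (i.1 : ℕ) ^ k := by
  obtain ⟨C, hC0, hC⟩ := exists_norm_c_le B.periodData B.N_ne_zero
  refine ⟨C, hC0, fun i h k => ?_⟩
  have h1 : ‖B.c (piPair i ^ k)‖ ≤ _ := hC (piPair i ^ k)
  rwa [c_piPair_pow B h, Complex.norm_real, Real.norm_eq_abs, SubmonoidClass.coe_pow, norm_pow,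
    Complex.norm_def, normSq_piPair h.2] at h1

theorem abs_evOf_le {i : Nat.Primes × Bool} (h : IsGoodSplit B i) :
    |evOf B i| ≤ Real.sqrt (i.1 : ℕ) + (Real.sqrt (i.1 : ℕ))⁻¹ := by
  obtain ⟨C, -, hC⟩ := exists_abs_heckeSeq_le B
  exact abs_le_of_heckeSeq_le (Real.one_le_sqrt.mpr (by exact_mod_cast i.1.2.one_lt.le)) (hC i h)

theorem sqrt_sq_mul_lt_one (p : Nat.Primes) {s : ℝ} (hs : 1 < s) :
    Real.sqrt (p : ℕ) ^ 2 * ((p : ℕ) : ℝ) ^ (-s) < 1 := by
  have hp : (0 : ℝ) < (p : ℕ) := by exact_mod_cast p.2.pos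
  rw [Real.sq_sqrt hp.le]
  nth_rewrite 1 [← Real.rpow_one ((p : ℕ) : ℝ)]
  rw [← Real.rpow_add hp]
  exact Real.rpow_lt_one_of_one_lt_of_neg (by exact_mod_cast p.2.one_lt) (by linarith)

/-- The terms of the local series of squares. -/
def sqTerm (s : ℝ) (i : Nat.Primes × Bool) (e : ℕ) : ℝ :=
  heckeSeq (evOf B i) e * heckeSeq (evOf B i) e * (((i.1 : ℕ) : ℝ) ^ (-s)) ^ e

theorem sqTerm_nonneg (s : ℝ) (i : Nat.Primes × Bool) (e : ℕ) : 0 ≤ sqTerm B s i e :=
  mul_nonneg (mul_self_nonneg _) (pow_nonneg (Real.rpow_nonneg (Nat.cast_nonneg _) _) _)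

theorem sqTerm_eq {s : ℝ} {i : Nat.Primes × Bool} (h : IsGoodSplit B i) (e : ℕ) :
    sqTerm B s i e =
      normSq (B.c (piPair i ^ e)) * normSq ((piPair i ^ e : EisInt) : ℂ) ^ (-s) := by
  rw [sqTerm, c_piPair_pow B h, Complex.normSq_ofReal, SubmonoidClass.coe_pow, map_pow,
    normSq_piPair h.2]
  congr 1
  rw [← Real.rpow_natCast_mul (Nat.cast_nonneg _), mul_comm (e : ℝ),
    Real.rpow_mul (Nat.cast_nonneg _), Real.rpow_natCast]

theorem summable_sqTerm {s : ℝ} (hs : 1 < s) {i : Nat.Primes × Bool} (h : IsGoodSplit B i) :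
    Summable (sqTerm B s i) := by
  obtain ⟨C, hC0, hC⟩ := exists_abs_heckeSeq_le B
  refine Summable.of_nonneg_of_le (sqTerm_nonneg B s i) (fun e => ?_)
    ((summable_geometric_of_lt_one (by positivity) (sqrt_sq_mul_lt_one i.1 hs)).mul_left (C ^ 2))
  rw [sqTerm, mul_pow, ← pow_mul, mul_comm 2 e, pow_mul, ← mul_assoc, ← mul_pow, ← abs_mul_abs_self,
    ← sq]
  exact mul_le_mul_of_nonneg_right (pow_le_pow_left₀ (abs_nonneg _) (hC i h e) 2) (by positivity)

/-- The local series of squares. -/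
def sqFactor (s : ℝ) (i : Nat.Primes × Bool) : ℝ := ∑' e, sqTerm B s i e

theorem one_le_sqFactor {s : ℝ} (hs : 1 < s) {i : Nat.Primes × Bool} (h : IsGoodSplit B i) :
    1 ≤ sqFactor B s i := by
  have := (summable_sqTerm B hs h).le_tsum 0 fun e _ => sqTerm_nonneg B s i e
  simpa [sqTerm, heckeSeq, sqFactor] using this

/-- The finite products of the local series of squares are bounded by the series of squares. -/
theorem exists_sqFactor_prod_le : ∃ C : ℝ, 0 ≤ C ∧ ∀ s : ℝ, 1 < s →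
    ∀ I : Finset (Nat.Primes × Bool), (∀ i ∈ I, IsGoodSplit B i) →
      ∏ i ∈ I, sqFactor B s i ≤ C / (min s (3 / 2) - 1) := by
  obtain ⟨C, hC0, hdir⟩ := exists_dirichlet_sq_le B.periodData B.N_ne_zero
  refine ⟨C, hC0, fun s hs I hI => ?_⟩
  set g : EisInt → ℝ := fun ν => normSq (B.c ν) * normSq (ν : ℂ) ^ (-s) with hg
  have hsum : ∀ T : Finset EisInt, ∑ ν ∈ T, g ν ≤ C / (min s (3 / 2) - 1) := fun T => by
    rcases le_total s (3 / 2) with h | h
    · rw [min_eq_left h]; exact hdir s hs h T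
    · rw [min_eq_right h]
      refine le_trans (Finset.sum_le_sum fun ν _ => ?_) (hdir (3 / 2) (by norm_num) le_rfl T)
      rcases eq_or_ne ν 0 with rfl | hν
      · simp [hg, B.c_zero]
      exact mul_le_mul_of_nonneg_left
        (Real.rpow_le_rpow_of_exponent_le (one_le_normSq hν) (by linarith)) (Complex.normSq_nonneg _)
  have key : ∀ (K : ℕ) (J : Finset (Nat.Primes × Bool)), (∀ i ∈ J, IsGoodSplit B i) →
      ∃ W : Finset EisInt, (∀ ν ∈ W, ν ∣ (∏ i ∈ J, piPair i) ^ K) ∧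
        ∑ ν ∈ W, g ν = ∏ i ∈ J, ∑ e ∈ Finset.range K, sqTerm B s i e := by
    intro K J
    induction J using Finset.induction_on with
    | empty => exact fun _ => ⟨{1}, by simp, by simp [hg, B.c_one]⟩
    | insert a J ha ih =>
      intro hJ
      have hga : IsGoodSplit B a := hJ a (Finset.mem_insert_self _ _)
      have hJ' : ∀ i ∈ J, IsGoodSplit B i := fun i hi => hJ i (Finset.mem_insert_of_mem hi)
      obtain ⟨W, hW, hWg⟩ := ih hJ'
      set π := piPair a
      have hπ : Prime π := prime_of_normSq a.1.2 (normSq_piPair hga.2)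
      have hco : ∀ ν ∈ W, IsCoprime π ν := fun ν hν =>
        ((IsCoprime.prod_right fun i hi =>
          isCoprime_piPair hga.2 (hJ' i hi).2 (fun h => ha (h ▸ hi))).pow_right).of_isCoprime_of_dvd_right
          (hW ν hν)
      have hlt : ∀ ν ∈ W, ∀ ν' : EisInt, ∀ e e' : ℕ, e < e' → π ^ e * ν ≠ π ^ e' * ν' := by
        intro ν hν ν' e e' he heq
        obtain ⟨d, rfl⟩ := Nat.exists_eq_add_of_lt he
        rw [pow_succ, pow_add, mul_assoc, mul_assoc] at heq
        refine hπ.not_isUnit ((hco ν hν).isUnit_of_dvd ⟨π ^ d * ν', ?_⟩)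
        rw [mul_left_cancel₀ (pow_ne_zero _ hπ.ne_zero) heq]
        ring
      refine ⟨(Finset.range K ×ˢ W).image fun q => π ^ q.1 * q.2, ?_, ?_⟩
      · intro ν hν
        obtain ⟨⟨e, ν₀⟩, hq, rfl⟩ := Finset.mem_image.mp hν
        obtain ⟨he, hν₀⟩ := Finset.mem_product.mp hq
        rw [Finset.prod_insert ha, mul_pow]
        exact mul_dvd_mul (pow_dvd_pow _ (Finset.mem_range.mp he).le) (hW _ hν₀)
      · rw [Finset.prod_insert ha, ← hWg, Finset.sum_mul_sum, ← Finset.sum_product']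
        rw [Finset.sum_image]
        · refine Finset.sum_congr rfl fun q hq => ?_
          obtain ⟨-, hν⟩ := Finset.mem_product.mp hq
          simp only [hg, sqTerm_eq B hga]
          rw [B.c_mul _ _ ((hco _ hν).pow_left), map_mul,
            show ((π ^ q.1 * q.2 : EisInt) : ℂ) = ((π ^ q.1 : EisInt) : ℂ) * (q.2 : ℂ) from rfl,
            map_mul, Real.mul_rpow (Complex.normSq_nonneg _) (Complex.normSq_nonneg _)]
          ring
        · rintro ⟨e, ν⟩ hq ⟨e', ν'⟩ hq' heq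
          obtain ⟨-, hν⟩ := Finset.mem_product.mp hq
          obtain ⟨-, hν'⟩ := Finset.mem_product.mp hq'
          simp only at heq
          rcases lt_trichotomy e e' with h | rfl | h
          · exact absurd heq (hlt ν hν ν' e e' h)
          · rw [mul_left_cancel₀ (pow_ne_zero _ hπ.ne_zero) heq]
          · exact absurd heq.symm (hlt ν' hν' ν e' e h)
  refine le_of_tendsto' (tendsto_finsetProd I fun i hi =>
    (summable_sqTerm B hs (hI i hi)).hasSum.tendsto_sum_nat) fun K => ?_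
  obtain ⟨W, -, hW⟩ := key K I hI
  rw [← hW]
  exact hsum W

theorem one_add_sum_le_prod {ι : Type*} (T : Finset ι) (a : ι → ℝ) (h : ∀ i ∈ T, 1 ≤ a i) :
    1 + ∑ i ∈ T, (a i - 1) ≤ ∏ i ∈ T, a i := by
  induction T using Finset.induction_on with
  | empty => simp
  | insert b T hb ih =>
    rw [Finset.sum_insert hb, Finset.prod_insert hb]
    have h1 := ih fun i hi => h i (Finset.mem_insert_of_mem hi)
    have h2 := h b (Finset.mem_insert_self _ _)
    have h3 : 0 ≤ ∑ i ∈ T, (a i - 1) :=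
      Finset.sum_nonneg fun i hi => sub_nonneg.mpr (h i (Finset.mem_insert_of_mem hi))
    nlinarith [mul_nonneg (sub_nonneg.mpr h2) h3, mul_le_mul_of_nonneg_left h1 (zero_le_one.trans h2)]

theorem summable_sqExcess {s : ℝ} (hs : 1 < s) :
    Summable fun i => if IsGoodSplit B i then sqFactor B s i - 1 else 0 := by
  obtain ⟨C, -, hC⟩ := exists_sqFactor_prod_le B
  refine summable_of_sum_le (c := C / (min s (3 / 2) - 1)) (fun i => ?_) fun T => ?_
  · simp only [Pi.zero_apply]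
    split_ifs with h
    · exact sub_nonneg.mpr (one_le_sqFactor B hs h)
    · exact le_rfl
  rw [← Finset.sum_filter]
  have hT : ∀ i ∈ T.filter (IsGoodSplit B), IsGoodSplit B i := fun i hi => (Finset.mem_filter.mp hi).2
  linarith [one_add_sum_le_prod _ (sqFactor B s) fun i hi => one_le_sqFactor B hs (hT i hi),
    hC s hs _ hT]

theorem abs_coef_inert_le {p : Nat.Primes} (hp : IsGood B p) (h : (p : ℕ) % 3 = 2) :
    |coef B.c p| ≤ 2 := by
  rw [coef, B.c_inert p p.2 hp.1 hp.2.1 h _ (frobPlace_liesOver p) _ (frobElt_isFrobeniusAt p),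
    Complex.intCast_re]
  unfold q8Trace
  split_ifs <;> simp

theorem tsum_norm_inert_le {p : Nat.Primes} (hp : IsGood B p) (h : (p : ℕ) % 3 = 2) {s : ℝ}
    (hs : 1 < s) :
    ∑' e : ℕ, ‖dterm B.c s ((p : ℕ) ^ e)‖ ≤ 1 + 18 * ((p : ℕ) : ℝ) ^ (-s) := by
  set t := ((p : ℕ) : ℝ) ^ (-s)
  have ht0 : 0 ≤ t := by positivity
  have ht : t ≤ 1 / 20 := rpow_neg_le hs.le (by norm_num) (by exact_mod_cast hp.2.2)
  have hgeo := summable_geometric_of_lt_one (show (0 : ℝ) ≤ 3 * t by positivity) (by linarith)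
  refine ((summable_norm_dterm_pow B hs p.2).tsum_le_tsum (fun e => ?_) hgeo).trans ?_
  · rw [dterm_pow, norm_mul, Real.norm_eq_abs, Real.norm_eq_abs, mul_pow,
      abs_of_nonneg (show (0 : ℝ) ≤ t ^ e by positivity)]
    refine mul_le_mul_of_nonneg_right ?_ (by positivity)
    rw [coef_pow_inert B h hp.2.1]
    exact abs_heckeSeq_le (abs_coef_inert_le B hp h) e
  · rw [tsum_geometric_of_lt_one (by positivity) (by linarith), inv_le_iff_one_le_mul₀ (by linarith)]
    nlinarith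

theorem tsum_norm_split_le {p : Nat.Primes} (hp : IsGood B p) (h : (p : ℕ) % 3 = 1) {s : ℝ}
    (hs : 1 < s) :
    ∑' e : ℕ, ‖dterm B.c s ((p : ℕ) ^ e)‖ ≤
      1 + ((sqFactor B s (p, true) - 1) + (sqFactor B s (p, false) - 1)) := by
  have h1 : IsGoodSplit B (p, true) := ⟨hp, h⟩
  have h2 : IsGoodSplit B (p, false) := ⟨hp, h⟩
  have hle : ∀ e : ℕ, ‖dterm B.c s ((p : ℕ) ^ e)‖ ≤
      (sqTerm B s (p, true) e + sqTerm B s (p, false) e) / 2 := fun e => by
    rw [dterm_pow, coef_pow_split B h hp.2.1, norm_mul, Real.norm_eq_abs, Real.norm_eq_abs, abs_mul,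
      abs_of_nonneg (show (0 : ℝ) ≤ (((p : ℕ) : ℝ) ^ (-s)) ^ e by positivity), sqTerm, sqTerm,
      evOf_true, evOf_false, ← abs_mul_abs_self (heckeSeq (xOf B p) e),
      ← abs_mul_abs_self (heckeSeq (yOf B p) e)]
    nlinarith [mul_nonneg (mul_self_nonneg (|heckeSeq (xOf B p) e| - |heckeSeq (yOf B p) e|))
      (show (0 : ℝ) ≤ (((p : ℕ) : ℝ) ^ (-s)) ^ e by positivity)]
  refine ((summable_norm_dterm_pow B hs p.2).tsum_le_tsum hle
    (((summable_sqTerm B hs h1).add (summable_sqTerm B hs h2)).div_const 2)).trans ?_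
  rw [tsum_div_const, (summable_sqTerm B hs h1).tsum_add (summable_sqTerm B hs h2)]
  have e1 := one_le_sqFactor B hs h1
  have e2 := one_le_sqFactor B hs h2
  simp only [sqFactor] at e1 e2 ⊢
  linarith

theorem summable_norm_dterm {s : ℝ} (hs : 1 < s) : Summable fun n => ‖dterm B.c s n‖ := by
  set f : ℕ → ℝ := fun n => ‖dterm B.c s n‖ with hf
  have hf1 : f 1 = 1 := by simp [hf, dterm_one]
  have hmul : ∀ {m n : ℕ}, m.Coprime n → f (m * n) = f m * f n := fun h => by
    simp only [hf, dterm_mul B s h, norm_mul]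
  have hsum : ∀ {p : ℕ}, p.Prime → Summable fun e : ℕ => ‖f (p ^ e)‖ := fun hp => by
    simpa [hf] using summable_norm_dterm_pow B hs hp
  set G : Nat.Primes → ℝ := fun p => (∑' e : ℕ, f ((p : ℕ) ^ e)) - 1
  have hG0 : ∀ p, 0 ≤ G p := fun p => sub_nonneg.2 (by
    have := (summable_norm_dterm_pow B hs p.2).le_tsum 0 fun e _ => norm_nonneg _
    simpa [hf, dterm_one] using this)
  have hG : Summable G := by
    have hE := summable_sqExcess B hs
    have hT := hE.comp_injective (i := fun p : Nat.Primes => (p, true)) fun _ _ h => (Prod.mk.inj h).1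
    have hF := hE.comp_injective (i := fun p : Nat.Primes => (p, false)) fun _ _ h => (Prod.mk.inj h).1
    refine Summable.of_norm_bounded_eventually
      (((Nat.Primes.summable_rpow.2 (show -s < -1 by linarith)).mul_left 18).add (hT.add hF)) ?_
    filter_upwards [(finite_not_isGood B).compl_mem_cofinite] with p hp
    simp only [Set.mem_compl_iff, Set.mem_ofPred_eq, not_not] at hp
    rw [Real.norm_eq_abs, abs_of_nonneg (hG0 p)]
    refine sub_le_iff_le_add'.2 ?_
    have ht0 : 0 ≤ ((p : ℕ) : ℝ) ^ (-s) := by positivity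
    rcases mod_three_cases B hp.2.1 with h | h
    · refine (tsum_norm_split_le B hp h hs).trans ?_
      simp only [Function.comp_apply, if_pos (show IsGoodSplit B (p, true) from ⟨hp, h⟩),
        if_pos (show IsGoodSplit B (p, false) from ⟨hp, h⟩)]
      linarith
    · refine (tsum_norm_inert_le B hp h hs).trans ?_
      have hn : ∀ b, ¬ IsGoodSplit B (p, b) := fun b hb => by have := hb.2; simp only at this; omega
      simp only [Function.comp_apply, if_neg (hn true), if_neg (hn false)]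
      linarith
  refine summable_of_sum_range_le (c := Real.exp (∑' p, G p)) (fun n => norm_nonneg _) fun M => ?_
  obtain ⟨h1, h2⟩ :=
    EulerProduct.summable_and_hasSum_smoothNumbers_prod_primesBelow_tsum hf1 hmul hsum M
  have hle : ∑ n ∈ Finset.range M, f n ≤ ∏ p ∈ M.primesBelow, ∑' e : ℕ, f (p ^ e) := by
    have h3 : ∑ n ∈ (Finset.range M).subtype (· ∈ M.smoothNumbers), f n ≤
        ∏ p ∈ M.primesBelow, ∑' e : ℕ, f (p ^ e) :=
      sum_le_hasSum _ (fun n _ => norm_nonneg _) h2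
    rw [Finset.sum_subtype_eq_sum_filter (f := f)] at h3
    refine le_trans (le_of_eq (Finset.sum_filter_of_ne fun n hn hne => ?_).symm) h3
    refine Nat.mem_smoothNumbers_of_lt (Nat.pos_of_ne_zero fun h0 => hne ?_) (Finset.mem_range.1 hn)
    simp [h0, hf, dterm_zero]
  refine hle.trans ?_
  rw [← Finset.prod_subtype_of_mem (fun p => ∑' e : ℕ, f (p ^ e))
    (fun p hp => Nat.prime_of_mem_primesBelow hp)]
  have key : ∀ T : Finset Nat.Primes, ∏ p ∈ T, ∑' e : ℕ, f ((p : ℕ) ^ e) ≤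
      Real.exp (∑' p, G p) := fun T => by
    calc ∏ p ∈ T, ∑' e : ℕ, f ((p : ℕ) ^ e) = ∏ p ∈ T, (1 + G p) :=
          Finset.prod_congr rfl fun p _ => (add_sub_cancel _ _).symm
      _ ≤ Real.exp (∑ p ∈ T, G p) := Real.prod_one_add_le_exp_sum T fun p => hG0 p
      _ ≤ _ := Real.exp_le_exp.2 (hG.sum_le_tsum T fun p _ => hG0 p)
  exact key _

theorem hasProd_factor {s : ℝ} (hs : 1 < s) :
    HasProd (factor B s) (∑' n, dterm B.c s n) :=
  EulerProduct.eulerProduct_hasProd (dterm_one B s) (fun h => dterm_mul B s h)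
    (summable_norm_dterm B hs) (dterm_zero B s)

theorem factor_split {s : ℝ} (hs : 1 < s) {p : Nat.Primes} (h : (p : ℕ) % 3 = 1)
    (hdvd : ¬ (p : ℕ) ∣ B.N) :
    let t := ((p : ℕ) : ℝ) ^ (-s)
    factor B s p * (1 - xOf B p * yOf B p * t + (xOf B p ^ 2 + yOf B p ^ 2 - 2) * t ^ 2 -
      xOf B p * yOf B p * t ^ 3 + t ^ 4) = 1 - t ^ 2 := by
  intro t
  have hsum : Summable fun e => heckeSeq (xOf B p) e * heckeSeq (yOf B p) e * t ^ e :=
    (summable_dterm_pow B hs p.2).congr fun e => by rw [coef_pow_split B h hdvd]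
  rw [factor, ← tsum_split_mul hsum]
  congr 1
  exact tsum_congr fun e => by rw [dterm_pow, coef_pow_split B h hdvd]

theorem factor_inert {s : ℝ} (hs : 1 < s) {p : Nat.Primes} (h : (p : ℕ) % 3 = 2)
    (hdvd : ¬ (p : ℕ) ∣ B.N) :
    let t := ((p : ℕ) : ℝ) ^ (-s)
    factor B s p * (1 - coef B.c p * t + t ^ 2) = 1 := by
  intro t
  have hsum : Summable fun e => heckeSeq (coef B.c p) e * t ^ e :=
    (summable_dterm_pow B hs p.2).congr fun e => by rw [coef_pow_inert B h hdvd]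
  refine Eq.trans ?_ (tsum_inert_mul hsum)
  rw [factor]
  congr 1
  exact tsum_congr fun e => by rw [dterm_pow, coef_pow_inert B h hdvd]

theorem exists_factor_lower (p : Nat.Primes) :
    ∃ δ : ℝ, ∀ s : ℝ, 1 < s → Real.exp δ ≤ |factor B s p| := by
  by_cases hdvd : (p : ℕ) ∣ B.N
  · refine ⟨0, fun s hs => le_of_eq ?_⟩
    rw [Real.exp_zero, factor, tsum_eq_single 0]
    · simp [dterm_one]
    · intro e he
      obtain ⟨k, rfl⟩ := Nat.exists_eq_succ_of_ne_zero he
      rw [dterm_pow, coef_pow_dvd B p.2 hdvd, zero_mul]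
  have ht : ∀ s : ℝ, 1 < s → 0 ≤ ((p : ℕ) : ℝ) ^ (-s) ∧ ((p : ℕ) : ℝ) ^ (-s) ≤ 1 / 2 :=
    fun s hs => ⟨by positivity, rpow_neg_le hs.le two_pos (by exact_mod_cast p.2.two_le)⟩
  have key : ∀ M : ℝ, 0 < M → (∀ s : ℝ, 1 < s → ∃ Δ : ℝ, |Δ| ≤ M ∧ 3 / 4 ≤ |factor B s p| * |Δ|) →
      ∃ δ : ℝ, ∀ s : ℝ, 1 < s → Real.exp δ ≤ |factor B s p| := by
    intro M hM h
    refine ⟨Real.log (3 / 4 / M), fun s hs => ?_⟩
    obtain ⟨Δ, hΔ, h1⟩ := h s hs
    rw [Real.exp_log (by positivity), div_le_iff₀ hM]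
    exact h1.trans (mul_le_mul_of_nonneg_left hΔ (abs_nonneg _))
  rcases mod_three_cases B hdvd with h | h
  · refine key (1 + |xOf B p * yOf B p| + |xOf B p ^ 2 + yOf B p ^ 2 - 2| +
      |xOf B p * yOf B p| + 1) (by positivity) fun s hs => ?_
    obtain ⟨ht0, ht1⟩ := ht s hs
    have hf := factor_split B hs h hdvd
    simp only at hf
    set t := ((p : ℕ) : ℝ) ^ (-s)
    refine ⟨1 - xOf B p * yOf B p * t + (xOf B p ^ 2 + yOf B p ^ 2 - 2) * t ^ 2 -
      xOf B p * yOf B p * t ^ 3 + t ^ 4, ?_, ?_⟩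
    · have hp : ∀ k : ℕ, |t ^ k| ≤ 1 := fun k => by
        rw [abs_of_nonneg (pow_nonneg ht0 k)]; exact pow_le_one₀ ht0 (by linarith)
      have hb : ∀ c : ℝ, ∀ k : ℕ, |c * t ^ k| ≤ |c| := fun c k => by
        rw [abs_mul]; exact mul_le_of_le_one_right (abs_nonneg _) (hp k)
      have b1 := hb (xOf B p * yOf B p) 1
      have b2 := hb (xOf B p ^ 2 + yOf B p ^ 2 - 2) 2
      have b3 := hb (xOf B p * yOf B p) 3
      have b4 := hp 4
      rw [pow_one] at b1
      rw [abs_le] at b1 b2 b3 b4 ⊢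
      constructor <;> linarith
    · rw [← abs_mul, hf]
      refine le_trans ?_ (le_abs_self _)
      nlinarith
  · refine key (1 + |coef B.c p| + 1) (by positivity) fun s hs => ?_
    obtain ⟨ht0, ht1⟩ := ht s hs
    have hf := factor_inert B hs h hdvd
    simp only at hf
    refine ⟨_, ?_, le_of_le_of_eq (by norm_num) (by rw [← abs_mul, hf, abs_one] : (1 : ℝ) = _)⟩
    set t := ((p : ℕ) : ℝ) ^ (-s)
    have b1 : |coef B.c p * t| ≤ |coef B.c p| := by
      rw [abs_mul, abs_of_nonneg ht0]; exact mul_le_of_le_one_right (abs_nonneg _) (by linarith)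
    have b2 : t ^ 2 ≤ 1 := pow_le_one₀ ht0 (by linarith)
    rw [abs_le] at b1 ⊢
    constructor <;> nlinarith

end Period

end FermatAgent.LTG

end
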